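/-
S27lib / Iface  (helper3, architect)  — Project D, version 2

Interface of the proof of S27:
  `Nat.card (Pic0.torsion K F (ℓ ^ k)) = ℓ ^ (2 * genusFF K F * k)`
for `K` algebraically closed of characteristic zero and `F / K` a function field of one variable.
Everything here is a definition, a statement (`def … : Prop`) or an assembly.  NO `sorry`.

**Currency** (helper7's proposal): the working statement is `CountAt K n g`, phrased with a
separating variable `x` and `S18lib.IsCurveOfGenus`; the frozen vocabulary (`IsCurveOver`,
`EssFiniteType`, `genusFF`) is converted ONCE, at the very end, by BR1 and BR2.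

Chain (`n ≥ 1`, `g` fixed; `Qb = AlgebraicClosure ℚ`):

  T1  `CountAt Qb n g`                      (Belyi D2, uniformisation D3, Kummer D4, count D5, BC)
  T2  `CountAt Qb n g → CountAt (Germ U Qb) n g` for every ultrafilter `U` on every type
                                            (ultrapower transfer, helper7 + helper9)
  T3  `CountAt K' n g → CountAt K n g` for `K ⊆ K'` algebraically closed, characteristic zero
                                            (constant field extension + descent, block BC)
  T4  every algebraically closed `K` of characteristic zero embeds into some `Germ U Qb`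
                                            (helper9, index type `Finset K`)
  BR1 a separating variable; BR2 `IsCurveOfGenus K F g → genusFF K F = g`.
-/
import Mathlib
import Fermat.Prelude.Def_AlgebraicCurve_DivisorClassGroup
import Fermat.Prelude.Def_AlgebraicCurve_IsCurveOver
import Fermat.Prelude.Def_AlgebraicCurve_Repartitions
import Fermat.Agent.S18lib.RRgen.Canonical

set_option autoImplicit false
set_option linter.style.haveILetI false

noncomputable section

namespace Fermat.Agent.S27lib

open AlgebraicCurve IntermediateField Fermat.Agent.S18lib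

universe u v w u'

/-! ### function fields and the working statement -/

/-- `F / K` is a function field of one variable: it has a separating variable. -/
class IsFunField (K : Type u) (F : Type v) [Field K] [Field F] [Algebra K F] : Prop where
  exists_sep : ∃ x : F, Transcendental K x ∧ FiniteDimensional K⟮x⟯ F

/-- **the working statement**: the `n`-torsion count for all function fields of genus `g` over `K`
(function fields in the universe `v`). -/
def CountAt (K : Type u) [Field K] (n g : ℕ) : Prop :=
  ∀ (F : Type v) [Field F] [Algebra K F] (x : F), Transcendental K x → FiniteDimensional K⟮x⟯ F →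
    IsCurveOfGenus K F g → Nat.card (Pic0.torsion K F n) = n ^ (2 * g)

/-- `ℚ̄` -/
abbrev Qb : Type := AlgebraicClosure ℚ

/-! ### the statements of the blocks -/

/-- **T1**: the count over `ℚ̄`. -/
def T1Stmt (n g : ℕ) : Prop := CountAt.{0, 0} Qb n g

/-- **T2**: ultrapower transfer, for every index type and every ultrafilter. -/
def T2Stmt (n g : ℕ) : Prop :=
  ∀ (I : Type w) (U : Ultrafilter I),
    CountAt.{0, 0} Qb n g → CountAt.{w, v} ((U : Filter I).Germ Qb) n g

/-- **T3**: the count descends along an extension of algebraically closed fields of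
characteristic zero. -/
def T3Stmt (n g : ℕ) : Prop :=
  ∀ (K : Type u) (K' : Type u') [Field K] [Field K'] [IsAlgClosed K] [IsAlgClosed K'] [CharZero K]
    [Algebra K K'], CountAt.{u', max u' v} K' n g → CountAt.{u, v} K n g

/-- **T4**: every algebraically closed field of characteristic zero embeds into an ultrapower
of `ℚ̄` (which is algebraically closed). -/
def T4Stmt : Prop :=
  ∀ (K : Type u) [Field K] [IsAlgClosed K] [CharZero K],
    ∃ (I : Type u) (U : Ultrafilter I), IsAlgClosed ((U : Filter I).Germ Qb) ∧
      Nonempty (K →+* (U : Filter I).Germ Qb)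

/-- **BR1**: a function field in the sense of S27 has a separating variable. -/
def BR1Stmt : Prop :=
  ∀ (K : Type u) (F : Type v) [Field K] [Field F] [Algebra K F] [CharZero K] [IsCurveOver K F]
    [Algebra.EssFiniteType K F], IsFunField K F

/-- **BR2**: the adelic genus of the frozen statement is the Riemann–Roch genus. -/
def BR2Stmt : Prop :=
  ∀ (K : Type u) (F : Type v) [Field K] [Field F] [Algebra K F] (g : ℕ),
    IsCurveOfGenus K F g → genusFF K F = g

/-! ### assembly -/

/-- the count for every algebraically closed field of characteristic zero -/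
theorem countAt_of_stmts {n g : ℕ} (h1 : T1Stmt n g) (h2 : T2Stmt.{max u v, u} n g)
    (h3 : T3Stmt.{u, v, u} n g) (h4 : T4Stmt.{u})
    (K : Type u) [Field K] [IsAlgClosed K] [CharZero K] : CountAt.{u, v} K n g := by
  obtain ⟨I, U, hAC, ⟨ι⟩⟩ := h4 K
  letI : Algebra K ((U : Filter I).Germ Qb) := ι.toAlgebra
  exact h3 K ((U : Filter I).Germ Qb) (h2 I U h1)

/-- **S27, in the shape of the frozen statement**, from the statements of the blocks. -/
theorem s27_of_stmts
    (h1 : ∀ n g, 0 < n → T1Stmt n g) (h2 : ∀ n g, 0 < n → T2Stmt.{max u v, u} n g)
    (h3 : ∀ n g, 0 < n → T3Stmt.{u, v, u} n g) (h4 : T4Stmt.{u})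
    (hBR1 : BR1Stmt.{u, v}) (hBR2 : BR2Stmt.{u, v})
    (K : Type u) (F : Type v) [Field K] [Field F] [Algebra K F] [IsAlgClosed K] [CharZero K]
    [IsCurveOver K F] [Algebra.EssFiniteType K F]
    (ℓ : ℕ) [Fact ℓ.Prime] (k : ℕ) :
    Nat.card (Pic0.torsion K F (ℓ ^ k)) = ℓ ^ (2 * genusFF K F * k) := by
  have hn : 0 < ℓ ^ k := pow_pos (Fact.out : ℓ.Prime).pos k
  obtain ⟨x, hx, hfin⟩ := (hBR1 K F).exists_sep
  haveI : CharZero K⟮x⟯ := charZero_of_injective_algebraMap (algebraMap K K⟮x⟯).injective
  have hF := RRgen.Canonical.isCurveOfGenus_genusOf K hx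
  have hg := hBR2 K F _ hF
  have h := countAt_of_stmts.{u, v} (h1 _ _ hn) (h2 _ _ hn) (h3 _ _ hn) h4 K F x hx
    hfin hF
  rw [h, hg, ← pow_mul, mul_comm k]

end Fermat.Agent.S27lib

end
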