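/-
S27lib / TD (helper7).

**Diagonal descent.**  For every ultrafilter `V` on every index type and every algebraically closed
field `K` of characteristic zero, the torsion count descends from the ultrapower `Germ V K` to `K`
(`countAt_of_germ`), and so does the count restricted to function fields with a Belyi function
(`belyiCountAt_of_germ`, for helper6's `Tsig.BelyiCountAt`).  Together with Steinitz (`S27lib/TC`, helper4) and the ultrapower transfer
T2 this replaces the constant field extension block BC.
-/
import Mathlib
import Fermat.Agent.S27lib.Iface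
import Fermat.Agent.S27lib.Tsig.Transport
import Fermat.Agent.S27lib.U.Descent

set_option autoImplicit false
set_option linter.unusedSectionVars false
set_option linter.style.haveILetI false

noncomputable section

namespace Fermat.Agent.S27lib

open Filter IntermediateField AlgebraicCurve Fermat.Agent.S18lib Fermat.Agent.S27lib.U
  Fermat.Agent.S27lib.U.Diag

universe u v w

open Fermat.Agent.S27lib.Tsig

section Diag

variable {ι : Type w} (V : Ultrafilter ι) (K : Type u) [Field K] [IsAlgClosed K] [CharZero K]

/-- the common part of the two descent theorems: the diagonal function field of `F / K`, its genus,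
and the descent of the count. -/
theorem exists_diag {F : Type u} [Field F] [Algebra K F] {x : F} (hx : Transcendental K x)
    [FiniteDimensional K⟮x⟯ F] {g : ℕ} (hF : IsCurveOfGenus K F g) {n : ℕ} (hn : 0 < n) :
    ∃ (F' : Type (max u w)) (_ : Field F') (_ : Algebra (Germ (V : Filter ι) K) F') (x' : F'),
      Transcendental (Germ (V : Filter ι) K) x' ∧
      FiniteDimensional (Germ (V : Filter ι) K)⟮x'⟯ F' ∧
      IsCurveOfGenus (Germ (V : Filter ι) K) F' g ∧
      (Nat.card (Pic0.torsion (Germ (V : Filter ι) K) F' n) = n ^ (2 * g) →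
        Nat.card (Pic0.torsion K F n) = n ^ (2 * g)) ∧
      ∀ c : ι → K, (∃ R : Place (Germ (V : Filter ι) K) F',
          2 ≤ R.ord (x' - algebraMap (Germ (V : Filter ι) K) F' ((c : ι → K) : Germ (V : Filter ι) K))) →
        ∀ᶠ i in (V : Filter ι), ∃ Q : Place K F, 2 ≤ Q.ord (x - algebraMap K F (c i)) := by
  letI := RRgen.Canonical.ratFuncAlgebra K hx
  haveI := RRgen.Canonical.isScalarTower_const_ratFunc K hx
  haveI := RRgen.Canonical.finiteDimensional_ratFunc K hx
  haveI : CharZero (RatFunc K) :=
    charZero_of_injective_algebraMap (algebraMap K (RatFunc K)).injective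
  obtain ⟨y, hy⟩ := Field.exists_primitive_element (RatFunc K) F
  letI := hF.hasPrincipalDivisors
  have hx' := transcendental_xE (KS V K) (FD V K F y)
  haveI := finiteDimensional_adjoin_xE (KS V K) (FD V K F y)
  have hF'0 := RRgen.Canonical.isCurveOfGenus_genusOf (KS V K) hx'
  set S := diagFam V K F hF.deg_eq_one hy with hS
  have hg : RRgen.Canonical.genusOf (KS V K) hx' = g := by
    obtain ⟨i, hi⟩ := (S.isCurveOfGenus_comp_eq hF'0).exists
    exact RRgen.Canonical.genus_unique hi hF
  rw [hg] at hF'0
  have hxE : xE K F = x := RRgen.Canonical.algebraMap_ratFuncAlgebra_X K hx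
  refine ⟨FD V K F y, inferInstance, inferInstance, xE (KS V K) (FD V K F y), hx', inferInstance,
    hF'0, fun hcard => card_torsion_of_diag hn hF hy hF'0 hcard, ?_⟩
  rintro c ⟨R, hR⟩
  have hne : xE (KS V K) (FD V K F y) -
      algebraMap (KS V K) (FD V K F y) ((c : ι → K) : KS V K) ≠ 0 := by
    intro h0
    rw [sub_eq_zero] at h0
    exact hx' (h0 ▸ isAlgebraic_algebraMap _)
  filter_upwards [S.ord_compPlace hF'0 R hne, S.comp_sub (xE (KS V K) (FD V K F y))
    (algebraMap (KS V K) (FD V K F y) ((c : ι → K) : KS V K)), S.comp_x, S.comp_const c]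
    with i h1 h2 h3 h4
  refine ⟨S.compPlace hF'0 R i, ?_⟩
  have h5 : S.comp (xE (KS V K) (FD V K F y) -
      algebraMap (KS V K) (FD V K F y) ((c : ι → K) : KS V K)) i = x - algebraMap K F (c i) := by
    rw [h2, h4]
    congr 1
    exact h3.trans hxE
  rw [h5] at h1
  exact hR.trans_eq h1.symm

/-- **TD**: the torsion count descends from an ultrapower of `K` to `K`. -/
theorem countAt_of_germ {n g : ℕ} (hn : 0 < n)
    (H : CountAt.{max u w, max u w} (Germ (V : Filter ι) K) n g) : CountAt.{u, u} K n g := by
  intro F _ _ x hx hfin hF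
  haveI := hfin
  obtain ⟨F', _, _, x', hx', hfin', hF', hdesc, -⟩ := exists_diag V K hx hF hn
  exact hdesc (H F' x' hx' hfin' hF')

/-- **TD, Belyi variant** (`BelyiCountAt` is helper6's `Tsig.BelyiCountAt`). -/
theorem belyiCountAt_of_germ {n g : ℕ} (hn : 0 < n)
    (H : BelyiCountAt.{max u w, max u w} (Germ (V : Filter ι) K) n g) :
    BelyiCountAt.{u, u} K n g := by
  intro F _ _ x _ _ hF hβ
  obtain ⟨β, hβ, hbr⟩ := hβ
  haveI := hβ.finite
  obtain ⟨F', _, _, β', hβ', hfin', hF', hdesc, hbranch⟩ :=
    exists_diag V K hβ.transcendental hF hn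
  refine hdesc (H F' β' hβ' hfin' hF' ⟨β', ⟨hβ', hfin'⟩, ?_⟩)
  intro c hc
  induction c using Germ.inductionOn with
  | _ c =>
    have h1 := hbranch c hc
    have h2 : ∀ᶠ i in (V : Filter ι), c i = 0 ∨ c i = 1 := by
      filter_upwards [h1] with i hi
      exact hbr hi
    rcases Ultrafilter.eventually_or.mp h2 with h3 | h3
    · left
      exact Germ.coe_eq.mpr h3
    · right
      exact Germ.coe_eq.mpr h3

end Diag

end Fermat.Agent.S27lib
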