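/-
S27lib / Short (helper7).

The two diagonal descent statements `TDStmt`, `TDBelyiStmt` of helper6's assembly
`S27lib/T1/Short.lean` (the short chain: T1′ over `ℂ`, Steinitz, ultrapower transfer T2, diagonal
descent TD), proved by `S27lib/TD.lean`; and the resulting statement of S27.
-/
import Mathlib
import Fermat.Agent.S27lib.T1.Short
import Fermat.Agent.S27lib.TD

set_option autoImplicit false

noncomputable section

namespace Fermat.Agent.S27lib

open AlgebraicCurve Fermat.Agent.S27lib.T1

universe u v w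

/-- **(TD)** -/
theorem tdStmt (n g : ℕ) (hn : 0 < n) : TDStmt.{w} n g :=
  fun _ V K _ _ _ H => countAt_of_germ V K hn H

/-- **(TD), Belyi variant over `ℚ̄`** -/
theorem tdBelyiStmt (n g : ℕ) (hn : 0 < n) : TDBelyiStmt n g :=
  fun _ V H => belyiCountAt_of_germ V Qb hn H

/-- **S27** (the frozen statement), by the short chain. -/
theorem s27_short (K : Type u) (F : Type v) [Field K] [Field F] [Algebra K F] [IsAlgClosed K]
    [CharZero K] [IsCurveOver K F] [Algebra.EssFiniteType K F] (ℓ : ℕ) [Fact ℓ.Prime] (k : ℕ) :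
    Nat.card (Pic0.torsion K F (ℓ ^ k)) = ℓ ^ (2 * genusFF K F * k) :=
  s27_of_td.{u, v} tdBelyiStmt tdStmt.{max u v} K F ℓ k

end Fermat.Agent.S27lib
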