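/-
S27lib / T2 (helper7).

Block T2 of the interface `S27lib/Iface.lean`: the ultrapower transfer
`CountAt ℚ̄ n g → CountAt (Germ U ℚ̄) n g`, for every index type and every ultrafilter.
Proof: `S27lib/U/*` (abstract theory of `UFam`, helper7) + `S27lib/U/B/*` (construction, helper9).
-/
import Mathlib
import Fermat.Agent.S27lib.Iface
import Fermat.Agent.S27lib.U.Main

set_option autoImplicit false
set_option linter.style.haveILetI false

noncomputable section

namespace Fermat.Agent.S27lib

open Filter IntermediateField AlgebraicCurve Fermat.Agent.S18lib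

universe u v w

/-- the working statement of `Iface.lean` implies the one of `U/Count.lean` (which carries a
redundant separability hypothesis) -/
theorem countAtU_of_countAt {K : Type u} [Field K] {n g : ℕ} (H : CountAt.{u, v} K n g) :
    U.CountAt.{u, v} K n g :=
  fun F _ _ x hx hfin _ hF => H F x hx hfin hF

/-- in characteristic zero the two working statements agree -/
theorem countAt_of_countAtU {K : Type u} [Field K] [CharZero K] {n g : ℕ}
    (H : U.CountAt.{u, v} K n g) : CountAt.{u, v} K n g := by
  intro F _ _ x hx hfin hF
  haveI := hfin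
  haveI : CharZero K⟮x⟯ := charZero_of_injective_algebraMap (algebraMap K K⟮x⟯).injective
  exact H F x hx hfin inferInstance hF

/-- **T2 for an arbitrary algebraically closed base field of characteristic zero** -/
theorem countAt_germ {ι : Type w} (V : Ultrafilter ι) (K₀ : Type u) [Field K₀] [IsAlgClosed K₀]
    [CharZero K₀] {n g : ℕ} (hn : 0 < n) (H : CountAt.{u, u} K₀ n g) :
    CountAt.{max u w, v} (Germ (V : Filter ι) K₀) n g :=
  countAt_of_countAtU (U.countAt_germ V K₀ hn (countAtU_of_countAt H))

/-- **T2** -/
theorem t2Stmt (n g : ℕ) (hn : 0 < n) : T2Stmt.{v, w} n g :=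
  fun _ V H => countAt_germ V Qb hn H

end Fermat.Agent.S27lib
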